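import Fermat.Agent.GoodReductionS18.Model.Export
import Fermat.Agent.GoodReductionModular.Cover.Fibres

/-!
# The fibres of the Hauptmodul over `ℚ̄`

The Hauptmodul of level `2` or `3` is unramified outside `0`, its branch value and infinity on
every level above it.
-/

set_option autoImplicit false

noncomputable section

namespace Fermat.Agent.GoodReductionS18

/-- The fibres of the Hauptmodul outside `0` and the branch value are unramified over `ℚ̄`. -/
theorem hauptFibres (h M : ℕ) [NeZero h] [NeZero M] (hh : h = 2 ∨ h = 3) :
    HauptFibres (AlgebraicClosure ℚ) h M := by
  intro f hf s hs hsc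
  have : FunctionField.IsFunctionField (AlgebraicClosure ℚ)
      (ModularCurve.modularFunctionFieldBar M) :=
    Hecke.isFunctionField_modular (AlgebraicClosure ℚ) M
  exact GoodReductionModular.card_fibre_hauptX hh hf hs hsc

end Fermat.Agent.GoodReductionS18
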