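import Fermat.Agent.GoodReductionS18.Model.GaussLevel
import Fermat.Agent.GoodReductionS18.Assembly
import Fermat.Agent.GoodReduction.Criterion
import Fermat.Agent.Hecke.Inputs

/-!
# The good Gauss model of level `M` on the Hauptmodul of level `2` or `3`

When the Hauptmodul has separable reduction of the same degree and its fibres outside `0` and the
branch value are unramified, the Gauss reduction of the field of level `M` is a good model.
-/

set_option autoImplicit false

noncomputable section

open AlgebraicCurve IntermediateField ModularCurve Fermat.Agent.GoodReductionModular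
  Fermat.Agent.GoodReduction

namespace Fermat.Agent.GoodReductionS18

attribute [local instance] isFunctionField_fullC

/-- The finite branch value other than `0` of the Hauptmodul. -/
def branchVal (h : ℕ) : ℤ := if h = 2 then -64 else -27

variable {K : Type*} [Field K] [Algebra ℚ K] [CharZero K]
variable {A : ValuationSubring K} {k : Type*} [Field k] {π : A →+* k}
variable {h : ℕ} [NeZero h] {M : ℕ} [NeZero M]

/-- The fibres of the Hauptmodul outside `0` and the branch value are unramified. -/
def HauptFibres (K : Type*) [Field K] [Algebra ℚ K] (h M : ℕ) [NeZero h] [NeZero M]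
    [IsAlgClosed K] : Prop :=
  ∀ f : laurentBaseChange K (modularFunctionFieldFull M), (f : LaurentSeries K) = hauptX h K →
    ∀ s : K, s ≠ 0 → s ≠ (branchVal h : K) →
      haveI : FunctionField.IsFunctionField K (laurentBaseChange K (modularFunctionFieldFull M)) :=
        Hecke.isFunctionField_modular K M
      (fibre f s).card = FunctionField.degFun K f

/-- The Gauss valuation is defined on the field of level `M`. -/
theorem gaussInput_level (hπ : Function.Surjective π) (hMk : (M : k) ≠ 0) :
    GaussInput (laurentBaseChange K (modularFunctionFieldFull M))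
      (modularFunctionFieldFullC k M) π := by
  rw [laurentBaseChange_full_eq]
  exact gaussInput_fullC hπ (Nat.cast_ne_zero.mpr (NeZero.ne M)) hMk

omit [Algebra ℚ K] [CharZero K] in
theorem liftK_hauptX : liftK A (hauptX h A) = hauptX h K := coeffMap_hauptX h A _

omit [NeZero h] in
theorem natCast_level_ne_zero_of_dvd (hhM : h ∣ M) (hMk : (M : k) ≠ 0) : (h : k) ≠ 0 := by
  obtain ⟨d, rfl⟩ := hhM
  rw [Nat.cast_mul] at hMk
  exact left_ne_zero_of_mul hMk

variable (hh : h = 2 ∨ h = 3) (hhM : h ∣ M) (hMk : (M : k) ≠ 0)
include hh hhM

theorem liftK_hauptX_mem :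
    liftK A (hauptX h A) ∈ laurentBaseChange K (modularFunctionFieldFull M) := by
  rw [liftK_hauptX, laurentBaseChange_full_eq]
  exact hauptX_mem_full K hh (Nat.cast_ne_zero.mpr (NeZero.ne h)) M hhM

variable (H : GaussInput (laurentBaseChange K (modularFunctionFieldFull M))
  (modularFunctionFieldFullC k M) π)

/-- The Hauptmodul as an integral element of the field of level `M`. -/
def hauptElt : (gaussReduction H).V :=
  ⟨⟨_, liftK_hauptX_mem hh hhM⟩, liftK_mem_gaussReduction H (liftK_hauptX_mem hh hhM)⟩

/-- The underlying series of `hauptElt` is the Hauptmodul `hauptX h K`. -/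
theorem coe_hauptElt :
    (((hauptElt hh hhM H : (gaussReduction H).V) :
      laurentBaseChange K (modularFunctionFieldFull M)) : LaurentSeries K) = hauptX h K :=
  liftK_hauptX

/-- The reduction of `hauptElt` is the Hauptmodul over the residue field. -/
theorem res_hauptElt :
    (((gaussReduction H).res (hauptElt hh hhM H) : modularFunctionFieldFullC k M) :
      LaurentSeries k) = hauptX h k :=
  (gaussReduction_res_liftK H (liftK_hauptX_mem hh hhM)).trans (coeffMap_hauptX h A π)

include hMk

/-- The reduction of `hauptElt` is transcendental over the residue field. -/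
theorem transcendental_res_hauptElt :
    Transcendental k ((gaussReduction H).res (hauptElt hh hhM H)) := fun halg =>
  transcendental_hauptX k hh (natCast_level_ne_zero_of_dvd hhM hMk)
    (res_hauptElt hh hhM H ▸ halg.algHom (modularFunctionFieldFullC k M).val)

/-- The reduction of the Hauptmodul is separating. -/
theorem isSeparable_res_hauptElt :
    Algebra.IsSeparable k⟮(gaussReduction H).res (hauptElt hh hhM H)⟯
      (modularFunctionFieldFullC k M) :=
  isSeparable_hauptX k hh (natCast_level_ne_zero_of_dvd hhM hMk) M hMk (res_hauptElt hh hhM H)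

/-- The reduction of the Hauptmodul has the same degree. -/
theorem degFun_res_hauptElt :
    FunctionField.degFun k ((gaussReduction H).res (hauptElt hh hhM H)) =
      FunctionField.degFun K
        ((hauptElt hh hhM H : (gaussReduction H).V) :
          laurentBaseChange K (modularFunctionFieldFull M)) := by
  refine Nat.eq_of_mul_eq_mul_right h.succ_pos ?_
  rw [degFun_hauptX_mul k hh (natCast_level_ne_zero_of_dvd hhM hMk) M hhM hMk
      (res_hauptElt hh hhM H), degFun_eq_relfinrank, coe_hauptElt, laurentBaseChange_full_eq,
    relfinrank_hauptX_mul K hh (Nat.cast_ne_zero.mpr (NeZero.ne h)) M hhM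
      (Nat.cast_ne_zero.mpr (NeZero.ne M))]

variable [IsAlgClosed K] [IsAlgClosed k]

/-- **The good model**: the Gauss reduction, polarised by the poles of the Hauptmodul. -/
theorem goodModel_hauptElt (hfib : HauptFibres K h M) :
    ∃ (g : ℕ) (c₀ : ℤ), ∀ c, c₀ ≤ c → GoodModel (gaussReduction H) g c
      (FunctionField.poleDiv K
        ((hauptElt hh hhM H : (gaussReduction H).V) :
          laurentBaseChange K (modularFunctionFieldFull M)))
      (FunctionField.poleDiv k ((gaussReduction H).res (hauptElt hh hhM H))) := by
  have : FunctionField.IsFunctionField K (laurentBaseChange K (modularFunctionFieldFull M)) :=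
    Hecke.isFunctionField_modular K M
  have := isSeparable_res_hauptElt hh hhM hMk H
  have hsurj : Function.Surjective (gaussReduction H).res :=
    gaussReduction_res_surjective hMk H
      ((laurentBaseChange_full_eq K M).ge (jqModC_mem_full K M))
      ((laurentBaseChange_full_eq K M).ge
        (modularFunctionFieldC_le_full K M (jqNModC_mem K M)))
  have hb : (branchVal h : k) ≠ 0 := by
    have hhk := natCast_level_ne_zero_of_dvd hhM hMk
    rcases hh with rfl | rfl
    · have : (branchVal 2 : k) = -((2 : ℕ) : k) ^ 6 := by simp [branchVal]; norm_num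
      rw [this]; exact neg_ne_zero.mpr (pow_ne_zero _ hhk)
    · have : (branchVal 3 : k) = -((3 : ℕ) : k) ^ 3 := by simp [branchVal]; norm_num
      rw [this]; exact neg_ne_zero.mpr (pow_ne_zero _ hhk)
  refine ⟨_, (goodModel_of_fibres (gaussReduction H) (transcendental_res_hauptElt hh hhM hMk H)
    (degFun_res_hauptElt hh hhM hMk H) hsurj 0 (branchVal h : A) ?_ fun s hs hs' => ?_).2⟩
  · rw [map_zero, map_intCast]; exact hb.symm
  · exact hfib _ (coe_hauptElt hh hhM H) s (by simpa using hs) (by simpa using hs')

/-- A good Gauss model exists at level `M` when the fibres of the Hauptmodul are unramified. -/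
theorem hasGoodModel (hπ : Function.Surjective π) (hfib : HauptFibres K h M) :
    HasGoodModel π M := by
  obtain ⟨g, c₀, hG⟩ := goodModel_hauptElt hh hhM hMk (gaussInput_level hπ hMk) hfib
  exact ⟨_, g, c₀, _, _, hG c₀ le_rfl⟩

end Fermat.Agent.GoodReductionS18
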