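import Fermat.Agent.GoodReductionS18.ResidualField
import Fermat.Agent.GoodReductionS18.Pullback
import Fermat.Agent.ModularFunctionField.Descent
import Fermat.Agent.GoodReductionModular.Hauptmodul
import Mathlib.FieldTheory.Relrank

/-!
# The Hauptmodul of level `2` or `3` in the field of level `M`, in any good characteristic

`k(x) = k(j, j(qʰ))`, so `[F_M : k(x)] = ψ(M)/(h + 1)` and `F_M` is separable over `k(x)`.
-/

set_option autoImplicit false

noncomputable section

open Polynomial IntermediateField ModularCurve Fermat.Agent.ModularFunctionField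
  Fermat.Agent.GoodReductionModular

namespace Fermat.Agent.GoodReductionS18

variable (k : Type*) [Field k]

/-- The field of level `M` has degree `ψ(M)` over `k(j)`. -/
theorem relfinrank_jField_fullC (M : ℕ) [NeZero M] (hM : (M : k) ≠ 0) :
    relfinrank (jField k) (modularFunctionFieldFullC k M) = dedekindPsi M := by
  have hle : jField k ≤ modularFunctionFieldFullC k M :=
    adjoin_simple_le_iff.mpr (jqModC_mem_full k M)
  rw [relfinrank_eq_finrank_of_le hle, ← finrank_adjoin_jqNModC hM]
  have : extendScalars hle = IntermediateField.adjoin (jField k) {jqNModC k M} := by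
    apply IntermediateField.restrictScalars_injective k
    rw [extendScalars_restrictScalars, modularFunctionFieldFullC_eq_restrictScalars hM]
  rw [this]

theorem hauptX_ne_zero' (h : ℕ) [NeZero h] : hauptX h k ≠ 0 := fun e => by
  have := hauptX_mul_hauptV h k
  rw [e, zero_mul] at this
  exact zero_ne_one this

theorem natDegree_numJ {h : ℕ} (hh : h = 2 ∨ h = 3) :
    (numJ h).natDegree = h + 1 ∧ (numJ h).Monic := by
  rcases hh with rfl | rfl
  · simp only [numJ, if_true]
    exact ⟨by rw [(monic_X_add_C _).natDegree_pow, natDegree_X_add_C], (monic_X_add_C _).pow 3⟩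
  · simp only [numJ, show ¬ ((3 : ℕ) = 2) by omega, if_false]
    refine ⟨?_, (monic_X_add_C _).mul ((monic_X_add_C _).pow 3)⟩
    rw [(monic_X_add_C _).natDegree_mul ((monic_X_add_C _).pow 3),
      (monic_X_add_C _).natDegree_pow, natDegree_X_add_C, natDegree_X_add_C]

/-- The image of an integral polynomial at `x` lies in `R(x)`. -/
theorem eval₂_intCast_mem {Ω : Type*} [Field Ω] [Algebra k Ω] (F : IntermediateField k Ω)
    (P : ℤ[X]) {x : Ω} (hx : x ∈ F) : P.eval₂ (Int.castRingHom Ω) x ∈ F := by
  rw [Polynomial.eval₂_eq_sum_range]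
  exact sum_mem fun i _ => mul_mem (intCast_mem F _) (pow_mem hx i)

/-- Separability over an intermediate field below `k(t)` gives separability over `k(t)`. -/
theorem isSeparable_adjoin_of_le {Ω : Type*} [Field Ω] [Algebra k Ω] (F : IntermediateField k Ω)
    (t : F) (J : IntermediateField k Ω) (hJ : J ≤ k⟮(t : Ω)⟯)
    (hsep : ∀ z ∈ F, ∃ p : J[X], p.Separable ∧ aeval z p = 0) :
    Algebra.IsSeparable k⟮t⟯ F := by
  refine ⟨fun z => ?_⟩
  obtain ⟨p, hp, hpz⟩ := hsep z z.2
  let e : k⟮t⟯ ≃ₐ[k] k⟮(t : Ω)⟯ :=
    (k⟮t⟯.equivMap F.val).trans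
      (IntermediateField.equivOfEq (by rw [adjoin_map, Set.image_singleton]; rfl))
  let ψ : J →+* k⟮t⟯ :=
    (e.symm : k⟮(t : Ω)⟯ →+* k⟮t⟯).comp (IntermediateField.inclusion hJ).toRingHom
  refine (hp.map (f := ψ)).of_dvd (minpoly.dvd _ _ ?_)
  refine F.val.toRingHom.injective ?_
  rw [map_zero, aeval_def, Polynomial.eval₂_map, Polynomial.hom_eval₂]
  have hcomp : F.val.toRingHom.comp ((algebraMap k⟮t⟯ F).comp ψ) = algebraMap J Ω :=
    RingHom.ext fun c => congrArg Subtype.val (e.apply_symm_apply _)
  rw [hcomp]
  exact hpz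

variable {h : ℕ} [NeZero h] (hh : h = 2 ∨ h = 3) (hhk : (h : k) ≠ 0)
include hh hhk

/-- `k(x) = k(j, j(qʰ))`. -/
theorem adjoin_hauptX_eq : k⟮hauptX h k⟯ = modularFunctionFieldFullC k h := by
  set x := hauptX h k with hx
  have hx0 := hauptX_ne_zero' k h
  have hj : jqModC k ∈ k⟮x⟯ := by
    have : jqModC k = (numJ h).eval₂ (Int.castRingHom _) x / x ^ h := by
      rw [eq_div_iff (pow_ne_zero _ hx0)]; exact jqModC_mul_hauptX_pow h hh k
    rw [this]
    exact div_mem (eval₂_intCast_mem k _ _ (mem_adjoin_simple_self k x))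
      (pow_mem (mem_adjoin_simple_self k x) h)
  have hjh : jqNModC k h ∈ k⟮x⟯ := by
    have : jqNModC k h = (numJh h).eval₂ (Int.castRingHom _) x / x := by
      rw [eq_div_iff hx0]; exact qExpand_jqModC_mul_hauptX h hh k
    rw [this]
    exact div_mem (eval₂_intCast_mem k _ _ (mem_adjoin_simple_self k x))
      (mem_adjoin_simple_self k x)
  have hle : modularFunctionFieldFullC k h ≤ k⟮x⟯ := by
    rw [modularFunctionFieldFullC_eq hhk, modularFunctionFieldC, adjoin_le_iff]
    rintro _ (rfl | rfl) <;> assumption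
  refine le_antisymm ?_ hle
  -- compare degrees over `k(j)`
  let E : IntermediateField (jField k) (LaurentSeries k) :=
    IntermediateField.adjoin (jField k) {jqNModC k h}
  let Ex : IntermediateField (jField k) (LaurentSeries k) := IntermediateField.adjoin (jField k) {x}
  obtain ⟨hdeg, hmon⟩ := natDegree_numJ hh
  let P : (jField k)[X] := (numJ h).map (Int.castRingHom _) -
    Polynomial.C (AdjoinSimple.gen k (jqModC k)) * X ^ h
  have hlt : (Polynomial.C (AdjoinSimple.gen k (jqModC k)) * X ^ h).degree <
      ((numJ h).map (Int.castRingHom (jField k))).degree := by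
    rw [degree_eq_natDegree (hmon.map _).ne_zero, hmon.natDegree_map, hdeg]
    exact lt_of_le_of_lt (degree_C_mul_X_pow_le _ _) (by exact_mod_cast Nat.lt_succ_self h)
  have hPm : P.Monic := (hmon.map _).sub_of_left hlt
  have hPd : P.natDegree = h + 1 := by
    rw [natDegree_eq_of_degree_eq (degree_sub_eq_left_of_degree_lt hlt), hmon.natDegree_map, hdeg]
  have hPx : aeval x P = 0 := by
    rw [aeval_def, eval₂_sub, eval₂_mul, eval₂_C, eval₂_X_pow, eval₂_map, sub_eq_zero,
      Subsingleton.elim ((algebraMap (jField k) (LaurentSeries k)).comp (Int.castRingHom _))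
        (Int.castRingHom (LaurentSeries k))]
    exact (jqModC_mul_hauptX_pow h hh k).symm
  have hxint : IsIntegral (jField k) x := ⟨P, hPm, hPx⟩
  have : FiniteDimensional (jField k) Ex := IntermediateField.adjoin.finiteDimensional hxint
  have hEle : E ≤ Ex := by
    rw [adjoin_simple_le_iff]
    have : k⟮x⟯ ≤ Ex.restrictScalars k := by
      rw [adjoin_simple_le_iff]; exact mem_adjoin_simple_self _ x
    exact this hjh
  have hEeq : E = Ex := by
    refine eq_of_le_of_finrank_le hEle ?_
    rw [finrank_adjoin_jqNModC hhk, dedekindPsi_prime hh, IntermediateField.adjoin.finrank hxint,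
      ← hPd]
    exact natDegree_le_of_dvd (minpoly.dvd _ _ hPx) hPm.ne_zero
  rw [adjoin_simple_le_iff, modularFunctionFieldFullC_eq_restrictScalars hhk]
  show x ∈ E
  rw [hEeq]
  exact mem_adjoin_simple_self _ x

variable (M : ℕ) [NeZero M]

/-- The Hauptmodul of level `h ∣ M` lies in the function field of level `M`. -/
theorem hauptX_mem_full (hhM : h ∣ M) : hauptX h k ∈ modularFunctionFieldFullC k M :=
  full_degeneracyC_le k hhM ((adjoin_hauptX_eq k hh hhk).le (mem_adjoin_simple_self k _))

theorem jField_le_adjoin_hauptX : jField k ≤ k⟮hauptX h k⟯ := by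
  rw [adjoin_hauptX_eq k hh hhk]
  exact adjoin_simple_le_iff.mpr (jqModC_mem_full k h)

/-- The degree of the field of level `M` over the Hauptmodul, times `h + 1`, is `ψ(M)`. -/
theorem relfinrank_hauptX_mul (hhM : h ∣ M) (hM : (M : k) ≠ 0) :
    relfinrank k⟮hauptX h k⟯ (modularFunctionFieldFullC k M) * (h + 1) = dedekindPsi M := by
  rw [← dedekindPsi_prime hh, ← relfinrank_jField_fullC k h hhk, ← adjoin_hauptX_eq k hh hhk,
    mul_comm, relfinrank_mul_relfinrank (jField_le_adjoin_hauptX k hh hhk)
      (adjoin_simple_le_iff.mpr (hauptX_mem_full k hh hhk M hhM)), relfinrank_jField_fullC k M hM]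

/-- The Hauptmodul is transcendental. -/
theorem transcendental_hauptX : Transcendental k (hauptX h k) := fun halg => by
  have hj := jField_le_adjoin_hauptX k hh hhk (mem_adjoin_simple_self k (jqModC k))
  have := IntermediateField.adjoin.finiteDimensional halg.isIntegral
  have : IsAlgebraic k (⟨jqModC k, hj⟩ : k⟮hauptX h k⟯) :=
    (IsIntegral.of_finite k _).isAlgebraic
  exact transcendental_jqModC_residual k (this.algHom (k⟮hauptX h k⟯).val)

omit hh hhk in
/-- The degree of an element in an intermediate field is the relative degree. -/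
theorem degFun_eq_relfinrank {Ω : Type*} [Field Ω] [Algebra k Ω] (F : IntermediateField k Ω)
    (y : F) : FunctionField.degFun k y = relfinrank k⟮(y : Ω)⟯ F := by
  have h1 := relfinrank_map_map k⟮y⟯ (⊤ : IntermediateField k F) F.val
  rw [relfinrank_top_right, adjoin_map, Set.image_singleton, ← AlgHom.fieldRange_eq_map,
    fieldRange_val] at h1
  exact h1.symm

/-- The Hauptmodul of level `h` has degree `ψ(M) / (h + 1)` on the curve of level `M`. -/
theorem degFun_hauptX_mul (hhM : h ∣ M) (hM : (M : k) ≠ 0)
    {t : modularFunctionFieldFullC k M} (ht : (t : LaurentSeries k) = hauptX h k) :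
    FunctionField.degFun k t * (h + 1) = dedekindPsi M := by
  rw [degFun_eq_relfinrank, ht, relfinrank_hauptX_mul k hh hhk M hhM hM]

/-- The field of level `M` is separable over the Hauptmodul. -/
theorem isSeparable_hauptX (hM : (M : k) ≠ 0)
    {t : modularFunctionFieldFullC k M} (ht : (t : LaurentSeries k) = hauptX h k) :
    Algebra.IsSeparable k⟮t⟯ (modularFunctionFieldFullC k M) := by
  refine isSeparable_adjoin_of_le k (modularFunctionFieldFullC k M) t (jField k)
    (by rw [ht]; exact jField_le_adjoin_hauptX k hh hhk) fun z hz => ?_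
  have hz' : z ∈ IntermediateField.adjoin (jField k) {jqNModC k M} :=
    (modularFunctionFieldFullC_eq_restrictScalars hM).le hz
  have : Algebra.IsSeparable (jField k)
      (IntermediateField.adjoin (jField k) {jqNModC k M}) :=
    (IntermediateField.isSeparable_adjoin_simple_iff_isSeparable _ _).mpr (isSeparable_jqNModC hM)
  have hsep := Algebra.IsSeparable.isSeparable (jField k)
    (⟨z, hz'⟩ : IntermediateField.adjoin (jField k) {jqNModC k M})
  refine ⟨_, hsep, ?_⟩
  have h0 := congrArg Subtype.val (minpoly.aeval (jField k)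
    (⟨z, hz'⟩ : IntermediateField.adjoin (jField k) {jqNModC k M}))
  rw [ZeroMemClass.coe_zero, ← IntermediateField.coe_val, ← Polynomial.aeval_algHom_apply] at h0
  exact h0

end Fermat.Agent.GoodReductionS18
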