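import Fermat.Agent.GoodReductionS18.Model.Field
import Fermat.Agent.GoodReductionS18.PullbackInjective
import Fermat.Agent.GoodReductionModular.Gauss

/-!
# The Gauss reduction of the modular function field at a place of good reduction

The elements `jⁱ j(q^M)ᵉ`, `e < ψ(M)`, stay independent mod `π`, so integral elements of `F_M`
reduce into the residual function field, and every residual element occurs.
-/

set_option autoImplicit false

noncomputable section

open Polynomial IntermediateField ModularCurve Fermat.Agent.GoodReductionModular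
  Fermat.Agent.ModularFunctionField

namespace Fermat.Agent.GoodReductionS18

/-- Scaling a nonzero family to integral entries, one of them `1`. -/
theorem exists_scale {K : Type*} [Field K] (A : ValuationSubring K) {ι : Type*} (s : Finset ι)
    (a : ι → K) (h : ∃ i ∈ s, a i ≠ 0) :
    ∃ c : K, c ≠ 0 ∧ (∀ i ∈ s, c * a i ∈ A) ∧ ∃ i ∈ s, c * a i = 1 := by
  obtain ⟨i₀, hi₀, hne⟩ := h
  obtain ⟨i, hi, hmax⟩ := s.exists_max_image (fun i => A.valuation (a i)) ⟨i₀, hi₀⟩
  have hi0 : a i ≠ 0 := fun e => by
    have := hmax i₀ hi₀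
    rw [e, map_zero, le_zero_iff, map_eq_zero] at this
    exact hne this
  refine ⟨(a i)⁻¹, inv_ne_zero hi0, fun l hl => ?_, i, hi, inv_mul_cancel₀ hi0⟩
  rw [← A.valuation_le_one_iff, map_mul, map_inv₀]
  exact inv_mul_le_one_of_le₀ (hmax l hl) zero_le

theorem coeffMap_eval₂_C {R S : Type*} [CommRing R] [CommRing S] (f : R →+* S) (p : R[X])
    (y : LaurentSeries R) :
    coeffMap f (p.eval₂ HahnSeries.C y) = (p.map f).eval₂ HahnSeries.C (coeffMap f y) := by
  rw [Polynomial.eval₂_map, Polynomial.hom_eval₂]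
  congr 1
  refine RingHom.ext fun r => ?_
  rw [RingHom.comp_apply, RingHom.comp_apply, HahnSeries.C_apply, HahnSeries.C_apply,
    coeffMap_single]

theorem eval₂_C_eq_aeval {k : Type*} [Field k] (p : k[X]) (y : LaurentSeries k) :
    p.eval₂ HahnSeries.C y = aeval y p := by
  rw [aeval_def]
  congr 1
  refine RingHom.ext fun r => ?_
  rw [algebraMap_laurentSeries_eq_single, HahnSeries.C_apply]

variable {K : Type*} [Field K] {A : ValuationSubring K} {k : Type*} [Field k] {π : A →+* k}
variable {M : ℕ} [NeZero M]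

theorem liftK_jqModC : liftK A (jqModC A) = jqModC K := coeffMap_jqModC _

theorem liftK_jqNModC (d : ℕ) [NeZero d] : liftK A (jqNModC A d) = jqNModC K d :=
  coeffMap_jqNModC _ _

omit [NeZero M] in
/-- The expansions of level `M` are quotients of bounded series. -/
theorem bounded_fullC (f : LaurentSeries K) (hf : f ∈ modularFunctionFieldFullC K M) :
    ∃ a b : LaurentSeries K, a ∈ boundedSeries K ∧ b ∈ boundedSeries K ∧
      a ∈ modularFunctionFieldFullC K M ∧ b ∈ modularFunctionFieldFullC K M ∧ b ≠ 0 ∧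
      f * b = a := by
  induction hf using IntermediateField.adjoin_induction with
  | mem x hx =>
    obtain ⟨d, hd, hdM, rfl⟩ := hx
    refine ⟨_, 1, ?_, one_mem _, jqModCd_mem_full K M hdM, one_mem _, one_ne_zero, mul_one _⟩
    rw [show qExpand K d (jqModC K) = coeffMap (Int.castRingHom K) (jqNModC ℤ d) from
      (coeffMap_jqNModC _ d).symm]
    exact coeffMap_intCast_mem_boundedSeries _
  | algebraMap c =>
    exact ⟨_, 1, algebraMap_mem_boundedSeries c, one_mem _,
      IntermediateField.algebraMap_mem _ c, one_mem _, one_ne_zero, mul_one _⟩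
  | add x y _ _ hx hy =>
    obtain ⟨a, b, ha, hb, haF, hbF, hb0, e⟩ := hx
    obtain ⟨a', b', ha', hb', haF', hbF', hb0', e'⟩ := hy
    exact ⟨a * b' + a' * b, b * b', add_mem (mul_mem ha hb') (mul_mem ha' hb), mul_mem hb hb',
      add_mem (mul_mem haF hbF') (mul_mem haF' hbF), mul_mem hbF hbF', mul_ne_zero hb0 hb0',
      by rw [← e, ← e']; ring⟩
  | inv x _ hx =>
    obtain ⟨a, b, ha, hb, haF, hbF, hb0, e⟩ := hx
    rcases eq_or_ne x 0 with rfl | hx0
    · exact ⟨0, 1, zero_mem _, one_mem _, zero_mem _, one_mem _, one_ne_zero, by simp⟩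
    exact ⟨b, a, hb, ha, hbF, haF, e ▸ mul_ne_zero hx0 hb0,
      by rw [← e, inv_mul_cancel_left₀ hx0]⟩
  | mul x y _ _ hx hy =>
    obtain ⟨a, b, ha, hb, haF, hbF, hb0, e⟩ := hx
    obtain ⟨a', b', ha', hb', haF', hbF', hb0', e'⟩ := hy
    exact ⟨a * a', b * b', mul_mem ha ha', mul_mem hb hb', mul_mem haF haF', mul_mem hbF hbF',
      mul_ne_zero hb0 hb0', by rw [← e, ← e']; ring⟩

/-- Elements of `F_M` as `(∑ P_e(j) j_Mᵉ) / Q(j)`. -/
theorem exists_representation (hM : (M : K) ≠ 0) {f : LaurentSeries K}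
    (hf : f ∈ modularFunctionFieldFullC K M) :
    ∃ (Q : K[X]) (P : ℕ → K[X]), Q ≠ 0 ∧ f * aeval (jqModC K) Q =
      ∑ e ∈ Finset.range (dedekindPsi M), aeval (jqModC K) (P e) * jqNModC K M ^ e := by
  have hint := ModularFunctionField.isIntegral_jqNModC (K := K) (N := M) hM
  have hmem : f ∈ Algebra.adjoin (jField K) {jqNModC K M} := by
    rw [← IntermediateField.adjoin_simple_toSubalgebra_of_isAlgebraic hint.isAlgebraic]
    exact (modularFunctionFieldFullC_eq_restrictScalars hM).le hf
  rw [Algebra.adjoin_singleton_eq_range_aeval] at hmem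
  obtain ⟨R, hR⟩ := hmem
  set S := R %ₘ minpoly (jField K) (jqNModC K M) with hS
  have hSd : S.natDegree < dedekindPsi M := by
    rw [← natDegree_minpoly_jqNModC (K := K) hM]
    exact natDegree_modByMonic_lt R (minpoly.monic hint) (minpoly.ne_one _ _)
  have hSf : aeval (jqNModC K M) S = f := by
    rw [hS, aeval_modByMonic_eq_self_of_root (minpoly.aeval _ _)]
    exact hR
  obtain ⟨Q, hQ0, hP⟩ := FunctionField.exists_common_denominator (Finset.range (dedekindPsi M))
    (jqModC K) (fun e => ((S.coeff e : jField K) : LaurentSeries K)) (fun e _ => (S.coeff e).2)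
  choose! P hP using hP
  refine ⟨Q, P, fun h => hQ0 (by rw [h, map_zero]), ?_⟩
  rw [← hSf, aeval_eq_sum_range' hSd, Finset.sum_mul]
  refine Finset.sum_congr rfl fun e he => ?_
  rw [← hP e he]
  show ((S.coeff e : jField K) : LaurentSeries K) * jqNModC K M ^ e * _ = _
  ring

/-- The elements `jⁱ j(q^M)ᵉ`, `e < ψ(M)`, are independent modulo `π`. -/
theorem eq_zero_of_sum_aeval_mul_pow (hMk : (M : k) ≠ 0) (p : ℕ → k[X])
    (h : ∑ e ∈ Finset.range (dedekindPsi M), aeval (jqModC k) (p e) * jqNModC k M ^ e = 0) :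
    ∀ e < dedekindPsi M, p e = 0 := by
  intro e he
  have hj : ∀ q : k[X], aeval (jqModC k) q ∈ jField k := fun q =>
    IntermediateField.algebra_adjoin_le_adjoin k _ (aeval_mem_adjoin_singleton k _)
  have hli := Fintype.linearIndependent_iff.mp (linearIndependent_pow_jqNModC (K := k) hMk)
    (fun i => ⟨_, hj (p i)⟩) (by
      rw [← h, Finset.sum_range fun e => aeval (jqModC k) (p e) * jqNModC k M ^ e]
      rfl) ⟨e, he⟩
  exact (transcendental_iff.mp (transcendental_jqModC_residual k)) _ (congrArg Subtype.val hli)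

/-- Integral elements reduce into the residual field. -/
theorem coeffMap_mem_fullC (hMK : (M : K) ≠ 0) (hMk : (M : k) ≠ 0) (y : LaurentSeries A)
    (hy : liftK A y ∈ modularFunctionFieldFullC K M) :
    coeffMap π y ∈ modularFunctionFieldFullC k M := by
  classical
  obtain ⟨Q, P, hQ, e⟩ := exists_representation hMK hy
  -- scale all coefficients
  let s : Finset (Option ℕ × ℕ) :=
    (Q.support.map ⟨fun i => (none, i), fun a b h => by simpa using h⟩) ∪
      (Finset.range (dedekindPsi M)).biUnion fun a =>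
        (P a).support.map ⟨fun i => (some a, i), fun a b h => by simpa using h⟩
  let coef : Option ℕ × ℕ → K := fun x => (x.1.elim Q P).coeff x.2
  obtain ⟨c, hc, hint, i₁, hi₁, hone⟩ := exists_scale A s coef
    ⟨(none, Q.natDegree), Finset.mem_union_left _
      (Finset.mem_map.mpr ⟨_, natDegree_mem_support_of_nonzero hQ, rfl⟩),
      leadingCoeff_ne_zero.mpr hQ⟩
  have hA : ∀ o : Option ℕ, (∀ a, o = some a → a < dedekindPsi M) →
      ∃ R : A[X], R.map A.subtype = Polynomial.C c * o.elim Q P := fun o ho => by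
    have hl : Polynomial.C c * o.elim Q P ∈ Polynomial.lifts A.subtype := by
      rw [Polynomial.lifts_iff_coeff_lifts]
      intro i
      rw [coeff_C_mul]
      rcases eq_or_ne ((o.elim Q P).coeff i) 0 with h0 | h0
      · exact ⟨0, by rw [h0, mul_zero, map_zero]⟩
      refine ⟨⟨_, hint (o, i) ?_⟩, rfl⟩
      rcases o with _ | a
      · exact Finset.mem_union_left _ (Finset.mem_map.mpr ⟨i, mem_support_iff.mpr h0, rfl⟩)
      · exact Finset.mem_union_right _ (Finset.mem_biUnion.mpr ⟨a, Finset.mem_range.mpr (ho a rfl),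
          Finset.mem_map.mpr ⟨i, mem_support_iff.mpr h0, rfl⟩⟩)
    exact (Polynomial.mem_lifts _).mp hl
  obtain ⟨Q', hQ'⟩ := hA none (by simp)
  choose P' hP' using fun a : Fin (dedekindPsi M) => hA (some a.1) (by simp)
  -- the integral relation
  have hrelA : y * Q'.eval₂ HahnSeries.C (jqModC A) =
      ∑ a, (P' a).eval₂ HahnSeries.C (jqModC A) * jqNModC A M ^ (a : ℕ) := by
    refine liftK_injective ?_
    rw [map_mul, map_sum]
    simp only [map_mul, map_pow, liftK_jqNModC]
    simp only [liftK, coeffMap_eval₂_C, coeffMap_jqModC, hQ', hP', eval₂_C_eq_aeval, map_mul,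
      aeval_C, Option.elim_none, Option.elim_some]
    rw [mul_left_comm]
    simp only [mul_assoc, ← Finset.mul_sum]
    congr 1
    exact e.trans (Finset.sum_range fun a => aeval (jqModC K) (P a) * jqNModC K M ^ a)
  have hrel : coeffMap π y * aeval (jqModC k) (Q'.map π) =
      ∑ a : Fin (dedekindPsi M), aeval (jqModC k) ((P' a).map π) * jqNModC k M ^ (a : ℕ) := by
    have := congrArg (coeffMap π) hrelA
    simpa only [map_mul, map_sum, map_pow, coeffMap_eval₂_C, coeffMap_jqModC, coeffMap_jqNModC,
      eval₂_C_eq_aeval] using this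
  have hcoe : ∀ {R : A[X]} {o : Option ℕ}, R.map A.subtype = Polynomial.C c * o.elim Q P →
      ∀ i, (R.coeff i : K) = c * (o.elim Q P).coeff i := fun hR i => by
    have := congrArg (fun p => Polynomial.coeff p i) hR
    simpa [coeff_map] using this
  have hQπ : Q'.map π ≠ 0 := by
    intro h0
    rw [h0, map_zero, mul_zero] at hrel
    let p : ℕ → k[X] := fun a => if ha : a < dedekindPsi M then (P' ⟨a, ha⟩).map π else 0
    have hp := eq_zero_of_sum_aeval_mul_pow hMk p (by
      rw [Finset.sum_range fun a => aeval (jqModC k) (p a) * jqNModC k M ^ a, hrel]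
      exact Finset.sum_congr rfl fun a _ => by simp [p, a.isLt])
    obtain ⟨o, i⟩ := i₁
    have hbad : ∀ (R : A[X]), R.map A.subtype = Polynomial.C c * o.elim Q P → R.map π ≠ 0 := by
      intro R hR h
      have h1 : R.coeff i = 1 := Subtype.ext ((hcoe hR i).trans hone)
      have := congrArg (fun p => Polynomial.coeff p i) h
      simp [coeff_map, h1] at this
    rcases Finset.mem_union.mp hi₁ with h | h
    · obtain ⟨_, -, hh⟩ := Finset.mem_map.mp h
      obtain ⟨rfl, -⟩ := Prod.mk.inj hh
      exact hbad Q' hQ' h0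
    · obtain ⟨a, ha, h⟩ := Finset.mem_biUnion.mp h
      obtain ⟨_, -, hh⟩ := Finset.mem_map.mp h
      obtain ⟨rfl, -⟩ := Prod.mk.inj hh
      have ha' := Finset.mem_range.mp ha
      have := hp a ha'
      simp only [p, ha', dif_pos] at this
      exact hbad _ (hP' ⟨a, ha'⟩) this
  have hden : aeval (jqModC k) (Q'.map π) ≠ 0 := fun h =>
    hQπ ((transcendental_iff.mp (transcendental_jqModC_residual k)) _ h)
  rw [eq_div_iff hden |>.mpr hrel]
  have hev : ∀ q : k[X], aeval (jqModC k) q ∈ modularFunctionFieldFullC k M := fun q =>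
    adjoin_simple_le_iff.mpr (jqModC_mem_full k M)
      (IntermediateField.algebra_adjoin_le_adjoin k _ (aeval_mem_adjoin_singleton k _))
  exact div_mem (sum_mem fun a _ => mul_mem (hev _)
    (pow_mem (modularFunctionFieldC_le_full k M (jqNModC_mem k M)) _)) (hev _)

/-- The field of level `M` admits the Gauss reduction onto the residual field of level `M`. -/
theorem gaussInput_fullC (hπ : Function.Surjective π) (hMK : (M : K) ≠ 0) (hMk : (M : k) ≠ 0) :
    GaussInput (modularFunctionFieldFullC K M) (modularFunctionFieldFullC k M) π :=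
  ⟨hπ, bounded_fullC, coeffMap_mem_fullC hMK hMk⟩

/-- The reduction is onto. -/
theorem gaussReduction_res_surjective (hMk : (M : k) ≠ 0)
    {F : IntermediateField K (LaurentSeries K)}
    (H : GaussInput F (modularFunctionFieldFullC k M) π) (hj : jqModC K ∈ F)
    (hjM : jqNModC K M ∈ F) : Function.Surjective (gaussReduction H).res := by
  suffices h : ∀ z ∈ modularFunctionFieldFullC k M,
      ∃ x : (gaussReduction H).V, ((gaussReduction H).res x : LaurentSeries k) = z by
    intro z
    obtain ⟨x, hx⟩ := h z z.2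
    exact ⟨x, Subtype.ext hx⟩
  intro z hz
  rw [modularFunctionFieldFullC_eq hMk, modularFunctionFieldC] at hz
  induction hz using IntermediateField.adjoin_induction with
  | mem x hx =>
    rcases hx with rfl | rfl
    · have hm : liftK A (jqModC A) ∈ F := by rwa [liftK_jqModC]
      exact ⟨_, (gaussReduction_res_liftK H hm).trans (coeffMap_jqModC π)⟩
    · have hm : liftK A (jqNModC A M) ∈ F := by rwa [liftK_jqNModC]
      exact ⟨_, (gaussReduction_res_liftK H hm).trans (coeffMap_jqNModC π M)⟩
  | algebraMap c =>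
    obtain ⟨a, rfl⟩ := H.surjective c
    exact ⟨_, congrArg Subtype.val ((gaussReduction H).res_algebraMap a)⟩
  | add x y _ _ hx hy =>
    obtain ⟨a, rfl⟩ := hx
    obtain ⟨b, rfl⟩ := hy
    exact ⟨a + b, by rw [map_add]; rfl⟩
  | inv x _ hx =>
    obtain ⟨a, rfl⟩ := hx
    rcases eq_or_ne ((gaussReduction H).res a) 0 with h0 | h0
    · exact ⟨0, by rw [h0, map_zero]; simp⟩
    refine ⟨⟨_, (gaussReduction H).inv_mem h0⟩, ?_⟩
    rw [← IntermediateField.coe_inv]
    refine congrArg Subtype.val (eq_inv_of_mul_eq_one_right ?_)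
    rw [← map_mul, show a * ⟨_, (gaussReduction H).inv_mem h0⟩ = 1 from
      Subtype.ext (mul_inv_cancel₀ ((gaussReduction H).coe_ne_zero h0)), map_one]
  | mul x y _ _ hx hy =>
    obtain ⟨a, rfl⟩ := hx
    obtain ⟨b, rfl⟩ := hy
    exact ⟨a * b, by rw [map_mul]; rfl⟩

end Fermat.Agent.GoodReductionS18
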